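import Fermat.Agent.AbVar.Basic
import Fermat.Agent.AbVar.Model.Extend
import Fermat.Agent.AbVar.Model.Points

/-!
# Every point lies on a curve through a rational point
-/

set_option autoImplicit false

universe u

noncomputable section

open CategoryTheory CategoryTheory.Limits AlgebraicGeometry NeronModelInfra

namespace Fermat.Agent.AbVar.Model

namespace Coord

variable {k : Type u} [Field k] [IsAlgClosed k] {L : Type u} [Field L] [Algebra k L] (D : Coord k L)

/-- A valuation ring containing the constants has a centre, which is a rational point. -/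
theorem exists_centre (V : ValuationSubring L) (hk : ∀ a, algebraMap k L a ∈ V) (hV : V ≠ ⊤) :
    ∃ (a : Spec (CommRingCat.of k) ⟶ D.model) (ℓ : Spec (CommRingCat.of V) ⟶ D.model),
      a ≫ D.modelTo = 𝟙 _ ∧ Spec.map (CommRingCat.ofHom V.subtype) ≫ ℓ = D.gen ∧
      Spec.map (CommRingCat.ofHom (IsLocalRing.residue V)) ≫ ℓ =
        Spec.map (CommRingCat.ofHom
          ((IsLocalRing.residue V).comp ((algebraMap k L).codRestrict V.toSubring hk))) ≫
            a := by
  let kV : k →+* V := (algebraMap k L).codRestrict V.toSubring hk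
  -- On a chart inside `V` the centre is the kernel of reduction, a maximal ideal unless `V` is all.
  have key : ∀ {T : Set L} (ι : Spec (CommRingCat.of (chart k T)) ⟶ D.model),
      ι ≫ D.modelTo = Spec.map (CommRingCat.ofHom (algebraMap k (chart k T))) →
      D.gen = Spec.map (CommRingCat.ofHom (chart k T).val.toRingHom) ≫ ι →
      IsDedekindDomain (chart k T) → IsFractionRing (chart k T) L →
        Algebra.FiniteType k (chart k T) →
      T ⊆ (V : Set L) →
      ∃ (a : Spec (CommRingCat.of k) ⟶ D.model) (ℓ : Spec (CommRingCat.of V) ⟶ D.model),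
        a ≫ D.modelTo = 𝟙 _ ∧ Spec.map (CommRingCat.ofHom V.subtype) ≫ ℓ = D.gen ∧
        Spec.map (CommRingCat.ofHom (IsLocalRing.residue V)) ≫ ℓ =
          Spec.map (CommRingCat.ofHom ((IsLocalRing.residue V).comp kV)) ≫ a := by
    intro T ι hι hgen hD hF hfin hT
    let h : chart k T →+* V := (chart k T).val.toRingHom.codRestrict V.toSubring fun b =>
      algebraMap_mem_of_chart V hk hT b.2
    let q : chart k T →+* IsLocalRing.ResidueField V := (IsLocalRing.residue V).comp h
    have hne : RingHom.ker q ≠ ⊥ := fun h0 => hV (by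
      refine eq_top_iff.mpr fun z _ => ?_
      obtain ⟨b, s, hs, rfl⟩ := IsFractionRing.div_surjective (A := chart k T) z
      have hsu : IsUnit (h s) := by
        have hs0 : s ≠ 0 := nonZeroDivisors.ne_zero hs
        by_contra hu
        refine hs0 ?_
        have : s ∈ RingHom.ker q := by
          rw [RingHom.mem_ker, RingHom.comp_apply, IsLocalRing.residue_eq_zero_iff]
          exact hu
        rwa [h0, Ideal.mem_bot] at this
      obtain ⟨w, hw⟩ := hsu
      have e : (b : L) / (s : L) = ((h b * ↑w⁻¹ : V) : L) := by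
        have h1 : ((h s : V) : L) * ((↑w⁻¹ : V) : L) = 1 := by
          rw [← hw]
          exact congrArg Subtype.val w.mul_inv
        rw [div_eq_mul_inv, inv_eq_of_mul_eq_one_right (a := (s : L)) h1]
        rfl
      exact (show (b : L) / (s : L) ∈ V from e ▸ SetLike.coe_mem _))
    have : (RingHom.ker q).IsPrime := RingHom.ker_isPrime q
    have : (RingHom.ker q).IsMaximal := Ideal.IsPrime.isMaximal inferInstance hne
    -- By the Nullstellensatz the centre is rational.
    obtain ⟨a, ha⟩ := exists_algHom_ker_eq (k := k) (RingHom.ker q)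
    have hq : ((IsLocalRing.residue V).comp kV).comp a.toRingHom = q := by
      refine RingHom.ext fun b => ?_
      have hb : b - algebraMap k (chart k T) (a b) ∈ RingHom.ker q := by
        rw [← ha, RingHom.mem_ker, map_sub, AlgHom.commutes]
        exact sub_self _
      rw [RingHom.mem_ker, map_sub, sub_eq_zero] at hb
      rw [hb]
      rfl
    refine ⟨Spec.map (CommRingCat.ofHom a.toRingHom) ≫ ι, Spec.map (CommRingCat.ofHom h) ≫ ι,
      ?_, ?_, ?_⟩
    · rw [Category.assoc, hι, specMap_comp, show a.toRingHom.comp (algebraMap k (chart k T)) =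
        RingHom.id k
        from a.comp_algebraMap, CommRingCat.ofHom_id, Spec.map_id]
    · rw [← Category.assoc, specMap_comp, hgen]
      rfl
    · rw [← Category.assoc, ← Category.assoc, specMap_comp, specMap_comp, hq]
  -- One of `t` and `t⁻¹` lies in `V`, so one of the two charts does.
  rcases V.mem_or_inv_mem D.t with ht | ht
  · exact key D.ιFin D.ιFin_modelTo D.gen_eq_fin D.isDedekindDomain D.isFractionRing D.finiteType
      (Set.singleton_subset_iff.mpr ht)
  · exact key D.ιInf D.ιInf_modelTo D.gen_eq_inf D.flip.isDedekindDomain D.flip.isFractionRing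
      D.flip.finiteType (Set.singleton_subset_iff.mpr ht)

end Coord

/-- A morphism to a separated scheme which agrees generically with a chart has the value given by
the residues at a centre. -/
theorem comp_eq_of_residue {k : Type u} [Field k] {L : Type u} [Field L] [Algebra k L]
    {X C : Scheme.{u}} [X.IsSeparated] {R : Type u} [CommRing R] (ι : Spec (CommRingCat.of R) ⟶ X)
    (ρ : R →+* L) (φ : C ⟶ X) (gen : Spec (CommRingCat.of L) ⟶ C)
    (hgen : gen ≫ φ = Spec.map (CommRingCat.ofHom ρ) ≫ ι)
    (V : ValuationSubring L) (hk : ∀ a, algebraMap k L a ∈ V)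
    (a : Spec (CommRingCat.of k) ⟶ C) (ℓ : Spec (CommRingCat.of V) ⟶ C)
    (h1 : Spec.map (CommRingCat.ofHom V.subtype) ≫ ℓ = gen)
    (h2 : Spec.map (CommRingCat.ofHom (IsLocalRing.residue V)) ≫ ℓ =
      Spec.map (CommRingCat.ofHom
        ((IsLocalRing.residue V).comp ((algebraMap k L).codRestrict V.toSubring hk))) ≫ a)
    (val : R →+* k) (hval : ∀ r, ρ r - algebraMap k L (val r) ∈ V.nonunits) :
    a ≫ φ = Spec.map (CommRingCat.ofHom val) ≫ ι := by
  have hρV : ∀ r, ρ r ∈ V := fun r => by
    simpa using add_mem (V.nonunits_subset (hval r)) (hk (val r))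
  let ρV : R →+* V := ρ.codRestrict V.toSubring hρV
  let kκ : k →+* IsLocalRing.ResidueField V :=
    (IsLocalRing.residue V).comp ((algebraMap k L).codRestrict V.toSubring hk)
  have : IsDominant (Spec.map (CommRingCat.ofHom V.subtype)) := by
    rw [isDominant_iff]
    exact PrimeSpectrum.denseRange_comap_iff_ker_le_nilRadical _ |>.mpr (by
      rw [CommRingCat.hom_ofHom,
        (RingHom.injective_iff_ker_eq_bot V.subtype).mp Subtype.val_injective]
      exact bot_le)
  have hℓ : ℓ ≫ φ = Spec.map (CommRingCat.ofHom ρV) ≫ ι := by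
    apply ext_of_isDominant (Spec.map (CommRingCat.ofHom V.subtype))
    rw [← Category.assoc, h1, hgen, ← Category.assoc, Coord.specMap_comp]
    rfl
  have hres : (IsLocalRing.residue V).comp ρV = kκ.comp val := RingHom.ext fun r => by
    rw [← sub_eq_zero]
    change IsLocalRing.residue V (ρV r) - IsLocalRing.residue V _ = 0
    rw [← map_sub, IsLocalRing.residue_eq_zero_iff, ← ValuationSubring.coe_mem_nonunits_iff]
    exact hval r
  let : Algebra k (IsLocalRing.ResidueField V) := kκ.toAlgebra
  have : Flat (Spec.map (CommRingCat.ofHom kκ)) := by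
    rw [HasRingHomProperty.Spec_iff (P := @Flat)]
    exact RingHom.flat_algebraMap_iff.mpr
      (inferInstance : Module.Flat k (IsLocalRing.ResidueField V))
  have : Surjective (Spec.map (CommRingCat.ofHom kκ)) :=
    ⟨fun p => ⟨default, (Subsingleton.elim _ _)⟩⟩
  have := Flat.epi_of_flat_of_surjective (Spec.map (CommRingCat.ofHom kκ))
  rw [← cancel_epi (Spec.map (CommRingCat.ofHom kκ)), ← Category.assoc, ← h2, Category.assoc, hℓ,
    ← Category.assoc, ← Category.assoc, Coord.specMap_comp, Coord.specMap_comp, hres]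

end Fermat.Agent.AbVar.Model

namespace Fermat.Agent.AbVar.AV

variable {K : Type u} [Field K] [IsAlgClosed K] (V : AV K)

/-- A point over an algebraically closed extension and some rational point lie on the image of a
smooth proper integral curve over the extension. -/
theorem exists_curve_rational (k' : Type u) [Field k'] [IsAlgClosed k'] [Algebra K k']
    (P : V.Pt (specK K k')) :
    ∃ (y : V.K_Points) (C : Scheme.{u}) (c : C ⟶ Spec (CommRingCat.of k')) (_ : IsProper c)
      (_ : SmoothOfRelativeDimension 1 c) (_ : IsIntegral C) (φ : V.Pt (c ≫ specK K k'))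
      (a b : SchemeHomOver (𝟙 (Spec (CommRingCat.of k'))) c),
      φ.comap (specK K k') a.1 (by rw [← Category.assoc, a.2, Category.id_comp]) = P ∧
        φ.comap (specK K k') b.1 (by rw [← Category.assoc, b.2, Category.id_comp]) =
          y.comap (specK K k') (specK K k') (Category.comp_id _) := by
  -- Take an affine neighbourhood of the point, with ring `R` of finite type over `K`.
  obtain ⟨_, ⟨U, hU, rfl⟩, hpU, -⟩ := V.A.isBasis_affineOpens.exists_subset_of_mem_open
    (Set.mem_univ (P.hom default)) isOpen_univ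
  replace hU : IsAffineOpen U := hU
  have hrange : Set.range P.hom ⊆ Set.range hU.fromSpec := by
    rw [hU.range_fromSpec]
    rintro _ ⟨z, rfl⟩
    rwa [Subsingleton.elim z default]
  let R := Γ(V.A, U)
  let s : CommRingCat.of K ⟶ R := (Scheme.ΓSpecIso _).inv ≫ V.f.appLE ⊤ U le_top
  have hs : hU.fromSpec ≫ V.f = Spec.map s := Jac.CoverFun.fromSpec_over V.f hU
  let : Algebra K R := s.hom.toAlgebra
  have : Algebra.FiniteType K R := by
    have h1 : LocallyOfFiniteType V.f := inferInstance
    have h2 : LocallyOfFiniteType (Spec.map s) := hs ▸ inferInstance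
    rw [HasRingHomProperty.Spec_iff (P := @LocallyOfFiniteType)] at h2
    exact h2
  let σc : R ⟶ CommRingCat.of k' := Spec.preimage (IsOpenImmersion.lift hU.fromSpec P.hom hrange)
  have hP : Spec.map σc ≫ hU.fromSpec = P.hom := by
    rw [Spec.map_preimage, IsOpenImmersion.lift_fac]
  have hσ : ∀ a : K, σc (s a) = algebraMap K k' a := fun a => by
    have : s ≫ σc = CommRingCat.ofHom (algebraMap K k') := Spec.map_injective (by
      rw [Spec.map_comp, ← hs, ← Category.assoc, hP]
      exact P.hom_over)
    exact ConcreteCategory.congr_hom this a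
  -- Model a curve over `k'` with valuation rings above `P` and above a rational point.
  obtain ⟨L, _, _, D, ρ, W, W₀, σ₀, hρ, ⟨hW, hWt, hWr⟩, ⟨hW₀, hW₀t, hW₀r⟩⟩ :=
    Model.exists_line (K := K) (R := R) { σc.hom with commutes' := hσ }
  -- The rational map of the curve to the variety extends, and the two centres are the two points.
  obtain ⟨φ, hφ1, hφ2⟩ := D.exists_extend (D.modelTo ≫ specK K k') V.f
    (Spec.map (CommRingCat.ofHom ρ) ≫ hU.fromSpec) (by
      rw [Category.assoc, hs, ← Category.assoc, D.gen_modelTo, specK, ← Spec.map_comp,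
        ← Spec.map_comp]
      exact congrArg Spec.map (CommRingCat.hom_ext (RingHom.ext hρ)))
  obtain ⟨a, ℓ, ha, ha1, ha2⟩ := D.exists_centre W hW hWt
  obtain ⟨b, ℓ₀, hb, hb1, hb2⟩ := D.exists_centre W₀ hW₀ hW₀t
  have : V.A.IsSeparated := by
    rw [Scheme.isSeparated_iff, ← terminal.comp_from V.f]
    infer_instance
  let y : V.K_Points := ⟨Spec.map (CommRingCat.ofHom σ₀.toRingHom) ≫ hU.fromSpec, by
    rw [Category.assoc, hs, ← Spec.map_comp,
      show s ≫ CommRingCat.ofHom σ₀.toRingHom =
        𝟙 _ from CommRingCat.hom_ext (RingHom.ext σ₀.commutes),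
      Spec.map_id]⟩
  refine ⟨y, D.model, D.modelTo, inferInstance, inferInstance, inferInstance, ⟨φ, hφ1⟩, ⟨a, ha⟩,
    ⟨b, hb⟩, Pt.ext ?_, Pt.ext ?_⟩
  · change a ≫ φ = P.hom
    rw [← hP]
    exact Model.comp_eq_of_residue hU.fromSpec ρ φ D.gen hφ2 W hW a ℓ ha1 ha2 σc.hom hWr
  · change b ≫ φ = specK K k' ≫ Spec.map (CommRingCat.ofHom σ₀.toRingHom) ≫ hU.fromSpec
    rw [← Category.assoc, specK, Model.Coord.specMap_comp]
    exact Model.comp_eq_of_residue hU.fromSpec ρ φ D.gen hφ2 W₀ hW₀ b ℓ₀ hb1 hb2 _ hW₀r

end Fermat.Agent.AbVar.AV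

end
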