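import Fermat.Agent.AbVar.Global
import Mathlib.AlgebraicGeometry.AlgClosed.Basic
import Mathlib.AlgebraicGeometry.Geometrically.Integral
import Mathlib.CategoryTheory.EffectiveEpi.Comp
import Mathlib.CategoryTheory.ExtremalEpi

/-!
# Rigidity for morphisms from a product of proper varieties

A morphism from a product of two proper geometrically integral schemes over an algebraically closed
field to a separated one, constant on the two axes, is constant.
-/

set_option autoImplicit false

universe u

noncomputable section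

open CategoryTheory CategoryTheory.Limits AlgebraicGeometry TopologicalSpace

namespace Fermat.Agent.AbVar.Rigidity

variable {k : Type u} [Field k] [IsAlgClosed k]

/-- A morphism from a proper integral scheme to an affine scheme is constant. -/
theorem eq_comp_section {X U : Scheme.{u}} [IsAffine U] (fX : X ⟶ Spec (CommRingCat.of k))
    [IsIntegral X] [IsProper fX] (x₀ : Spec (CommRingCat.of k) ⟶ X) (hx₀ : x₀ ≫ fX = 𝟙 _)
    (h : X ⟶ U) :
    h = fX ≫ x₀ ≫ h := by
  refine ext_of_isAffine ?_
  have hid : x₀.appTop ≫ fX.appTop = 𝟙 _ := by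
    have : IsIso fX.appTop := (ConcreteCategory.isIso_iff_bijective _).mpr (appTop_bijective fX)
    rw [← cancel_epi fX.appTop, ← Category.assoc, ← Scheme.Hom.comp_appTop, hx₀,
      Scheme.Hom.id_appTop, Category.id_comp, Category.comp_id]
  simp only [Scheme.Hom.comp_appTop, Category.assoc, hid, Category.comp_id]

variable {X Y J : Scheme.{u}} (fX : X ⟶ Spec (CommRingCat.of k)) (fY : Y ⟶ Spec (CommRingCat.of k))
  (fJ : J ⟶ Spec (CommRingCat.of k))

/-- Rigidity. -/
theorem eq_of_axes [IsProper fX] [GeometricallyIntegral fX] [IsProper fY] [GeometricallyIntegral fY]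
    [Flat fY] [UniversallyOpen fY] [IsSeparated fJ] [LocallyOfFiniteType fJ]
    (x₀ : Spec (CommRingCat.of k) ⟶ X) (hx₀ : x₀ ≫ fX = 𝟙 _)
    (y₀ : Spec (CommRingCat.of k) ⟶ Y) (hy₀ : y₀ ≫ fY = 𝟙 _)
    (j₀ : Spec (CommRingCat.of k) ⟶ J) (hj₀ : j₀ ≫ fJ = 𝟙 _)
    (g : pullback fX fY ⟶ J) (hg : g ≫ fJ = pullback.fst fX fY ≫ fX)
    (hX : pullback.lift (𝟙 X) (fX ≫ y₀)
      (by rw [Category.assoc, hy₀, Category.comp_id, Category.id_comp]) ≫ g =
      fX ≫ j₀)
    (hY : pullback.lift (fY ≫ x₀) (𝟙 Y)
      (by rw [Category.assoc, hx₀, Category.comp_id, Category.id_comp]) ≫ g =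
      fY ≫ j₀) :
    g = pullback.fst fX fY ≫ fX ≫ j₀ := by
  classical
  have : IsIntegral X := GeometricallyIntegral.isIntegral_of_subsingleton fX
  have : LocallyOfFiniteType (pullback.fst fX fY ≫ fX) := inferInstance
  have : IsLocallyNoetherian X := LocallyOfFiniteType.isLocallyNoetherian fX
  have : IsIntegral (pullback fX fY) := inferInstance
  -- an affine neighbourhood of the value
  let p : J := j₀ (IsLocalRing.closedPoint k)
  obtain ⟨_, ⟨U, hU, rfl⟩, hpU, -⟩ :=
    J.isBasis_affineOpens.exists_subset_of_mem_open (Set.mem_univ p) isOpen_univ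
  have hjU : ∀ a, j₀ a ∈ U := fun a => (Subsingleton.elim (IsLocalRing.closedPoint k) a) ▸ hpU
  -- the points of the second factor over which the morphism leaves the neighbourhood
  let Z : Set Y := pullback.snd fX fY '' (g ⁻¹' (U : Set J)ᶜ)
  have hZ : IsClosed Z :=
    (pullback.snd fX fY).isClosedMap _ (U.isOpen.isClosed_compl.preimage g.continuous)
  have hy₀Z : y₀ (IsLocalRing.closedPoint k) ∉ Z := by
    rintro ⟨w, hw, hwy⟩
    have hw' : w ∈ Set.range (pullback.fst (pullback.snd fX fY) y₀) := by
      rw [Scheme.Pullback.range_fst]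
      exact ⟨_, hwy.symm⟩
    obtain ⟨v, rfl⟩ := hw'
    have hfac : pullback.fst (pullback.snd fX fY) y₀ =
        (pullback.fst (pullback.snd fX fY) y₀ ≫ pullback.fst fX fY) ≫
          pullback.lift (𝟙 X) (fX ≫ y₀)
            (by rw [Category.assoc, hy₀, Category.comp_id, Category.id_comp]) := by
      apply pullback.hom_ext
      · simp only [Category.assoc, pullback.lift_fst, Category.comp_id]
      · simp only [Category.assoc, pullback.lift_snd]
        rw [pullback.condition_assoc (f := fX) (g := fY),
          pullback.condition_assoc (f := pullback.snd fX fY) (g := y₀),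
          reassoc_of% hy₀, pullback.condition]
    apply hw
    rw [← Scheme.Hom.comp_apply, hfac, Category.assoc, hX, ← Category.assoc, Scheme.Hom.comp_apply]
    exact hjU _
  let O : Set ↥(pullback fX fY) := pullback.snd fX fY ⁻¹' Zᶜ
  have hOo : IsOpen O := hZ.isOpen_compl.preimage (pullback.snd fX fY).continuous
  have hOne : O.Nonempty := by
    refine ⟨pullback.lift x₀ y₀ (hx₀.trans hy₀.symm) (IsLocalRing.closedPoint k), ?_⟩
    show pullback.snd fX fY (pullback.lift x₀ y₀ _ (IsLocalRing.closedPoint k)) ∉ Z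
    rw [← Scheme.Hom.comp_apply, pullback.lift_snd]
    exact hy₀Z
  have H' : g ≫ fJ = (pullback.fst fX fY ≫ fX ≫ j₀) ≫ fJ := by
    rw [hg]; simp only [Category.assoc, hj₀, Category.comp_id]
  have : LocallyOfFiniteType (g ≫ fJ) := by rw [hg]; infer_instance
  refine ext_of_apply_eq fJ O hOo.isLocallyClosed (hOo.dense hOne) (fun w hw hwc => ?_) H'
  -- the closed point `y` below and its section
  have hyc : IsClosed {pullback.snd fX fY w} := by
    simpa using (pullback.snd fX fY).isClosedMap _ hwc
  let y := pointOfClosedPoint fY _ hyc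
  have hy : y ≫ fY = 𝟙 _ := pointOfClosedPoint_comp fY _ hyc
  let i : X ⟶ pullback fX fY :=
    pullback.lift (𝟙 X) (fX ≫ y) (by rw [Category.assoc, hy, Category.comp_id, Category.id_comp])
  have hiU : Set.range (i ≫ g) ⊆ Set.range (Scheme.Opens.ι U) := by
    rintro _ ⟨v, rfl⟩
    rw [Scheme.Opens.range_ι]
    by_contra hv
    refine hw ⟨i v, ?_, ?_⟩
    · rwa [Scheme.Hom.comp_apply] at hv
    · rw [← Scheme.Hom.comp_apply, pullback.lift_snd, Scheme.Hom.comp_apply]
      exact pointOfClosedPoint_apply fY _ hyc _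
  have : IsAffine U := hU
  have hlift := IsOpenImmersion.lift_fac (Scheme.Opens.ι U) (i ≫ g) hiU
  have hconst : i ≫ g = fX ≫ j₀ := by
    rw [← hlift, eq_comp_section fX x₀ hx₀ (IsOpenImmersion.lift (Scheme.Opens.ι U) (i ≫ g) hiU)]
    simp only [Category.assoc, hlift]
    have hxi : x₀ ≫ i = y ≫ pullback.lift (fY ≫ x₀) (𝟙 Y)
        (by rw [Category.assoc, hx₀, Category.comp_id, Category.id_comp]) := by
      apply pullback.hom_ext <;>
        simp only [i, Category.assoc, pullback.lift_fst, pullback.lift_snd, Category.comp_id,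
          reassoc_of% hy, reassoc_of% hx₀]
    rw [reassoc_of% hxi, hY, reassoc_of% hy]
  let z := pointOfClosedPoint (pullback.fst fX fY ≫ fX) w hwc
  have hz : z ≫ pullback.fst fX fY ≫ fX = 𝟙 _ := pointOfClosedPoint_comp _ w hwc
  have hzy : z ≫ pullback.snd fX fY = y := by
    refine ext_of_apply_closedPoint_eq fY ?_ hy ?_
    · rw [Category.assoc, ← pullback.condition, hz]
    · rw [Scheme.Hom.comp_apply, pointOfClosedPoint_apply, pointOfClosedPoint_apply]
  have hzi : z = (z ≫ pullback.fst fX fY) ≫ i := by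
    apply pullback.hom_ext
    · simp only [i, Category.assoc, pullback.lift_fst, Category.comp_id]
    · simp only [i, Category.assoc, pullback.lift_snd, hzy, reassoc_of% hz]
  have : z ≫ g = z ≫ pullback.fst fX fY ≫ fX ≫ j₀ := by
    conv_lhs => rw [hzi]
    simp only [Category.assoc, hconst]
  have := congrArg (fun f : Spec (CommRingCat.of k) ⟶ J => f (IsLocalRing.closedPoint k)) this
  simpa only [Scheme.Hom.comp_apply, z, pointOfClosedPoint_apply] using this

end Fermat.Agent.AbVar.Rigidity

end
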