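import Fermat.Agent.AbVar.Theta
import Fermat.Agent.AbVar.Curve.Rigidity
import Fermat.Agent.Jac.Main

/-!
# The cube class is constant along curves
-/

set_option autoImplicit false

universe u

noncomputable section

open CategoryTheory CategoryTheory.Limits AlgebraicGeometry AlgebraicGeometry.RelPicard
  NeronModelInfra
  GoodReductionJacobian

namespace Fermat.Agent.AbVar.AV

variable {K : Type u} [Field K] {V : AV K}

theorem Pt.eq_zero_of_hom_eq {T : Scheme.{u}} {t : T ⟶ Spec (CommRingCat.of K)} (x : V.Pt t)
    {q : T ⟶ Spec (CommRingCat.of K)} (h : x.hom = q ≫ (0 : V.K_Points).hom) : x = 0 := by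
  have hq : q = t := by
    rw [← x.hom_over, h, Category.assoc, Pt.hom_over, Category.comp_id]
  subst hq
  refine Eq.trans (Pt.ext (y := (0 : V.K_Points).comap q q (Category.comp_id q)) ?_)
    (Pt.comap_zero _ _ _)
  rw [h, Pt.comap_hom]

theorem theta_middle_zero {T : Scheme.{u}} {t : T ⟶ Spec (CommRingCat.of K)} (L : Pic V.A)
    (x z : V.Pt t) :
    theta L x 0 z = 0 := by
  simp only [theta, add_zero, zero_add, pb_zero]
  abel

theorem theta_last_zero {T : Scheme.{u}} {t : T ⟶ Spec (CommRingCat.of K)} (L : Pic V.A)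
    (x y : V.Pt t) :
    theta L x y 0 = 0 := by
  simp only [theta, add_zero, pb_zero]
  abel

variable {k' : Type u} [Field k'] [Algebra K k']
variable {C : Scheme.{u}} (c : C ⟶ Spec (CommRingCat.of k'))

/-- The structure morphism of the curve times the square. -/
abbrev curveSqStr (V : AV K) :
    pullback c (pullback.fst (specK K k') V.sqStr) ⟶ Spec (CommRingCat.of K) :=
  pullback.fst _ _ ≫ c ≫ specK K k'

theorem curveSqStr_eq (V : AV K) :
    curveSqStr c V =
      (pullback.snd c (pullback.fst (specK K k') V.sqStr) ≫ pullback.snd (specK K k') V.sqStr) ≫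
        V.sqStr := by
  rw [curveSqStr, pullback.condition_assoc, pullback.condition, Category.assoc]

variable (φ : V.Pt (c ≫ specK K k'))

/-- The cube class on the curve times the square. -/
def curveTheta (L : Pic V.A) : Pic (pullback c (pullback.fst (specK K k') V.sqStr)) :=
  theta L (φ.comap (curveSqStr c V) (pullback.fst _ _) rfl)
    (V.pr₁.comap (curveSqStr c V) _ (curveSqStr_eq c V).symm)
    (V.pr₂.comap (curveSqStr c V) _ (curveSqStr_eq c V).symm)

/-- The cube class on the curve times the square dies on the axes. -/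
theorem map_curveTheta_eq_zero (L : Pic V.A) {T : Scheme.{u}}
    (W : T ⟶ pullback c (pullback.fst (specK K k') V.sqStr)) (q : T ⟶ Spec (CommRingCat.of K))
    (h : W ≫ pullback.snd _ _ ≫ pullback.snd (specK K k') V.sqStr ≫ pullback.fst V.f V.f =
        q ≫ (0 : V.K_Points).hom ∨
      W ≫ pullback.snd _ _ ≫ pullback.snd (specK K k') V.sqStr ≫ pullback.snd V.f V.f =
        q ≫ (0 : V.K_Points).hom) :
    Pic.map W (curveTheta c φ L) = 0 := by
  rw [curveTheta, ← theta_comap L (W ≫ curveSqStr c V) W rfl]
  rcases h with h | h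
  · rw [Pt.eq_zero_of_hom_eq ((V.pr₁.comap _ _ _).comap _ _ _)
      (by simp only [Pt.comap_hom, Category.assoc]; exact h), theta_middle_zero]
  · rw [Pt.eq_zero_of_hom_eq ((V.pr₂.comap _ _ _).comap _ _ _)
      (by simp only [Pt.comap_hom, Category.assoc]; exact h), theta_last_zero]

/-- The slice at a point of the curve is the pull-back of the cube class on the curve along the
section. -/
theorem slice_eq_map_rigSection (L : Pic V.A) (a : SchemeHomOver (𝟙 (Spec (CommRingCat.of k'))) c)
    (P : V.Pt (specK K k')) (hP : P.hom = a.1 ≫ φ.hom) :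
    V.slice L P = Pic.map (rigSection c (pullback.fst (specK K k') V.sqStr) a)
      (curveTheta c φ L) := by
  have hover : rigSection c (pullback.fst (specK K k') V.sqStr) a ≫ curveSqStr c V =
      V.sqStrExt k' := by
    simp only [rigSection, curveSqStr, pullback.lift_fst_assoc, Category.assoc, reassoc_of% a.2]
  rw [curveTheta, ← theta_comap L (V.sqStrExt k') _ hover]
  unfold slice
  congr 1 <;> refine Pt.ext ?_
  · simp only [Pt.comap_hom, hP, rigSection, pullback.lift_fst_assoc, Category.assoc]
  · simp only [Pt.comap_hom, rigSection, Category.assoc, pullback.lift_snd_assoc, Category.id_comp]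
  · simp only [Pt.comap_hom, rigSection, Category.assoc, pullback.lift_snd_assoc, Category.id_comp]

theorem nonempty_iso_unit_of_map_eq_zero {X T : Scheme.{u}} {M : X.Modules}
    (hM : Scheme.Modules.IsInvertible M) (W : T ⟶ X) (h : Pic.map W (Pic.ofModules M hM) = 0) :
    Nonempty ((Scheme.Modules.pullback W).obj M ≅ SheafOfModules.unit T.ringCatSheaf) := by
  rw [Pic.map_ofModules, ← Pic.ofModules_unit] at h
  exact (Pic.ofModules_eq_iff _ _).mp h

section

variable [IsAlgClosed K] [IsAlgClosed k'] [IsProper c] [SmoothOfRelativeDimension 1 c]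
    [IsIntegral C]

section Normalised

variable (a : SchemeHomOver (𝟙 (Spec (CommRingCat.of k'))) c)

omit [IsAlgClosed K] [IsAlgClosed k'] [IsProper c] [SmoothOfRelativeDimension 1 c] [IsIntegral C] in
/-- The cube class normalised along a section dies on the axes. -/
private theorem map_normalised_eq_zero (L : Pic V.A) {T : Scheme.{u}}
    (W : T ⟶ pullback c (pullback.fst (specK K k') V.sqStr)) (q : T ⟶ Spec (CommRingCat.of K))
    (h : W ≫ pullback.snd _ _ ≫ pullback.snd (specK K k') V.sqStr ≫ pullback.fst V.f V.f =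
        q ≫ (0 : V.K_Points).hom ∨
      W ≫ pullback.snd _ _ ≫ pullback.snd (specK K k') V.sqStr ≫ pullback.snd V.f V.f =
        q ≫ (0 : V.K_Points).hom) :
    Pic.map W (curveTheta c φ L - Pic.map (pullback.snd c (pullback.fst (specK K k') V.sqStr))
      (Pic.map (rigSection c (pullback.fst (specK K k') V.sqStr) a) (curveTheta c φ L))) = 0 := by
  have h1 := map_curveTheta_eq_zero c φ L W q h
  have h2 := map_curveTheta_eq_zero c φ L
    (W ≫ pullback.snd c (pullback.fst (specK K k') V.sqStr) ≫
      rigSection c (pullback.fst (specK K k') V.sqStr) a) q (by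
      simpa only [Category.assoc, rigSection, pullback.lift_snd_assoc, Category.id_comp] using h)
  simp only [Pic.map_comp] at h2
  simp only [map_sub, h1, h2, sub_zero]

omit [IsAlgClosed K] [IsAlgClosed k'] [SmoothOfRelativeDimension 1 c] [IsIntegral C] [IsProper c] in
/-- A rigidified class on the curve times the square which dies on the first axis is fibrewise
algebraically equivalent to zero. -/
private theorem fibrewiseAlgEquivZero_of_axis (hV : GeometricallyIntegral V.f)
    (R : RigidifiedLineBundle c a (pullback.fst (specK K k') V.sqStr))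
    (hvan : ∀ {T : Scheme.{u}} (W : T ⟶ pullback c (pullback.fst (specK K k') V.sqStr))
      (q : T ⟶ Spec (CommRingCat.of K)),
      W ≫ pullback.snd _ _ ≫ pullback.snd (specK K k') V.sqStr ≫ pullback.fst V.f V.f =
        q ≫ (0 : V.K_Points).hom → Pic.map W (Pic.ofModules R.L R.isInvertible) = 0) :
    FibrewiseAlgEquivZero R := by
  have : GeometricallyIntegral V.sqStr := Jac.Abel.geometricallyIntegral_fst_comp V.f V.f
  set z := (0 : V.K_Points).hom
  have hz : z ≫ V.f = 𝟙 _ := Pt.hom_over _
  intro k'' _ _ σ
  -- The origin gives a section `o`; compare the fibre at `σ` with that at `o` inside one family.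
  let o : Spec (CommRingCat.of k') ⟶ pullback (specK K k') V.sqStr :=
    pullback.lift (𝟙 _) (specK K k' ≫ pullback.lift z z rfl)
      (by rw [Category.id_comp, Category.assoc, sqStr, pullback.lift_fst_assoc, hz,
        Category.comp_id])
  have ho : o ≫ (pullback.fst (specK K k') V.sqStr) = 𝟙 _ := pullback.lift_fst _ _ _
  let pF := pullback.fst (pullback.snd c (pullback.fst (specK K k') V.sqStr)) σ
  have hG : (pullback.fst (fibreAt c (pullback.fst (specK K k') V.sqStr) σ)
        (pullback.snd (pullback.fst (specK K k') V.sqStr) (σ ≫ pullback.fst (specK K k') V.sqStr)) ≫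
        pF ≫ pullback.fst c (pullback.fst (specK K k') V.sqStr)) ≫ c =
      (pullback.snd (fibreAt c (pullback.fst (specK K k') V.sqStr) σ)
        (pullback.snd (pullback.fst (specK K k') V.sqStr) (σ ≫ pullback.fst (specK K k') V.sqStr)) ≫
        pullback.fst _ _) ≫ pullback.fst (specK K k') V.sqStr := by
    simp only [Category.assoc, pF]
    rw [pullback.condition, pullback.condition_assoc (f := pullback.snd c _) (g := σ),
      pullback.condition (f := pullback.fst (specK K k') V.sqStr)
        (g := σ ≫ pullback.fst (specK K k') V.sqStr)]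
    exact pullback.condition_assoc (f := fibreAt c (pullback.fst (specK K k') V.sqStr) σ)
      (g := pullback.snd (pullback.fst (specK K k') V.sqStr)
        (σ ≫ pullback.fst (specK K k') V.sqStr)) _
  let G := pullback.lift _ _ hG
  -- The family is parametrised by the square, `t₁` being the point `σ` and `t₀` the origin.
  let t₀ : SchemeHomOver (𝟙 _) (pullback.snd (pullback.fst (specK K k') V.sqStr)
      (σ ≫ pullback.fst (specK K k') V.sqStr)) :=
    ⟨pullback.lift ((σ ≫ pullback.fst (specK K k') V.sqStr) ≫ o) (𝟙 _)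
        (by simp only [Category.assoc, ho, Category.comp_id, Category.id_comp]),
          pullback.lift_snd _ _ _⟩
  let t₁ : SchemeHomOver (𝟙 _) (pullback.snd (pullback.fst (specK K k') V.sqStr)
      (σ ≫ pullback.fst (specK K k') V.sqStr)) :=
    ⟨pullback.lift σ (𝟙 _) (Category.id_comp _).symm, pullback.lift_snd _ _ _⟩
  refine ⟨_, _, inferInstance, inferInstance, (Scheme.Modules.pullback G).obj R.L,
    R.isInvertible.pullback G, t₀, t₁, ?_, ?_⟩
  -- At the origin the class dies by hypothesis.
  · obtain ⟨e⟩ := nonempty_iso_unit_of_map_eq_zero R.isInvertible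
        (baseChangeSnd (fibreAt c (pullback.fst (specK K k') V.sqStr) σ) t₀ ≫ G) (by
      refine hvan _ (pullback.snd _ _ ≫ σ ≫ pullback.fst (specK K k') V.sqStr ≫ specK K k') ?_
      simp only [G, Category.assoc, pullback.lift_snd_assoc, Jac.Abel.baseChangeSnd_snd_assoc]
      simp only [t₀, o, Category.assoc, pullback.lift_snd_assoc, pullback.lift_fst_assoc,
        pullback.lift_fst])
    exact ⟨(Scheme.Modules.pullbackComp _ _).app R.L ≪≫ e⟩
  -- At `σ` it is the fibre in question.
  · have hsq : baseChangeSnd (fibreAt c (pullback.fst (specK K k') V.sqStr) σ) t₁ ≫ G =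
        pullback.fst (fibreAt c (pullback.fst (specK K k') V.sqStr) σ) (𝟙 _) ≫ pF := by
      apply pullback.hom_ext
      · simp only [G, Category.assoc, pullback.lift_fst, Jac.Abel.baseChangeSnd_fst_assoc]
      · simp only [G, Category.assoc, pullback.lift_snd, Jac.Abel.baseChangeSnd_snd_assoc]
        simp only [t₁, pullback.lift_fst, pF, pullback.condition]
        rw [← Category.assoc]
        exact congrArg (· ≫ σ)
          ((pullback.condition (f := fibreAt c (pullback.fst (specK K k') V.sqStr) σ)
          (g := 𝟙 _)).trans (Category.comp_id _)).symm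
    exact ⟨(Scheme.Modules.pullbackComp _ _).app R.L ≪≫
      (Scheme.Modules.pullbackCongr hsq).app R.L ≪≫
      ((Scheme.Modules.pullbackComp _ _).app R.L).symm⟩

omit [IsAlgClosed K] [IsProper c] [SmoothOfRelativeDimension 1 c] [IsIntegral C] in
/-- A morphism from the square over the larger field which is constant on both axes is constant. -/
private theorem eq_fst_comp_of_axes (hV : GeometricallyIntegral V.f) {Y : Scheme.{u}}
    (d : Y ⟶ Spec (CommRingCat.of k')) [IsSeparated d] [LocallyOfFiniteType d]
    (s : Spec (CommRingCat.of k') ⟶ Y) (hs : s ≫ d = 𝟙 _)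
    (g : pullback (specK K k') V.sqStr ⟶ Y) (hgd : g ≫ d = pullback.fst (specK K k') V.sqStr)
    (hzero : ∀ {T : Scheme.{u}} (ι : T ⟶ pullback (specK K k') V.sqStr)
      (q : T ⟶ Spec (CommRingCat.of K)),
      (ι ≫ pullback.snd (specK K k') V.sqStr ≫ pullback.fst V.f V.f = q ≫ (0 : V.K_Points).hom ∨
        ι ≫ pullback.snd (specK K k') V.sqStr ≫ pullback.snd V.f V.f = q ≫ (0 : V.K_Points).hom) →
      ι ≫ g = (ι ≫ pullback.fst (specK K k') V.sqStr) ≫ s) :
    g = pullback.fst (specK K k') V.sqStr ≫ s := by
  set z := (0 : V.K_Points).hom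
  have hz : z ≫ V.f = 𝟙 _ := Pt.hom_over _
  -- The square over the larger field is the self product of the variety over it.
  let a₁ := pullback.fst (specK K k') V.f
  let q₁ := pullback.snd (specK K k') V.f
  let Φ : pullback a₁ a₁ ⟶ pullback (specK K k') V.sqStr :=
    pullback.lift (pullback.fst _ _ ≫ a₁)
      (pullback.lift (pullback.fst _ _ ≫ q₁) (pullback.snd _ _ ≫ q₁) (by
        simp only [Category.assoc, q₁, a₁, ← pullback.condition (f := specK K k') (g := V.f)]
        rw [pullback.condition_assoc]))
      (by simp only [Category.assoc, sqStr, pullback.lift_fst_assoc, a₁, q₁];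
          rw [pullback.condition])
  let Φ' : pullback (specK K k') V.sqStr ⟶ pullback a₁ a₁ :=
    pullback.lift (pullback.lift (pullback.fst (specK K k') V.sqStr)
      ((pullback.snd (specK K k') V.sqStr) ≫
        pullback.fst V.f V.f) (by rw [pullback.condition, Category.assoc]))
      (pullback.lift (pullback.fst (specK K k') V.sqStr) ((pullback.snd (specK K k') V.sqStr) ≫
        pullback.snd V.f V.f)
        (by rw [pullback.condition, Category.assoc, ← pullback.condition (f := V.f)]))
      (by simp only [a₁, pullback.lift_fst])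
  have hΦ : Φ' ≫ Φ = 𝟙 _ := by
    apply pullback.hom_ext
    · simp only [Φ', Φ, a₁, Category.assoc, pullback.lift_fst, pullback.lift_fst_assoc,
        Category.id_comp]
    · simp only [Φ', Φ, q₁, Category.assoc, pullback.lift_snd, Category.id_comp]
      apply pullback.hom_ext <;>
        simp only [Category.assoc, pullback.lift_fst, pullback.lift_snd, pullback.lift_fst_assoc,
          pullback.lift_snd_assoc]
  have hΦo : Φ ≫ (pullback.fst (specK K k') V.sqStr) = pullback.fst a₁ a₁ ≫ a₁ :=
    pullback.lift_fst _ _ _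
  let x₀ : Spec (CommRingCat.of k') ⟶ pullback (specK K k') V.f :=
    pullback.lift (𝟙 _) (specK K k' ≫ z)
      (by rw [Category.assoc, hz, Category.id_comp, Category.comp_id])
  have hx₀ : x₀ ≫ a₁ = 𝟙 _ := pullback.lift_fst _ _ _
  -- Rigidity: the morphism is constant, being constant on both axes.
  have key := Rigidity.eq_of_axes a₁ a₁ d x₀ hx₀ x₀ hx₀ s hs
    (Φ ≫ g) (by rw [Category.assoc, hgd, hΦo]) ?_ ?_
  · calc g = Φ' ≫ Φ ≫ g := by rw [reassoc_of% hΦ]
      _ = ((Φ' ≫ Φ) ≫ (pullback.fst (specK K k') V.sqStr)) ≫ s := by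
          rw [key]; simp only [Category.assoc, reassoc_of% hΦo]
      _ = (pullback.fst (specK K k') V.sqStr) ≫ s := by rw [hΦ, Category.id_comp]
  · rw [← Category.assoc, hzero _ (a₁ ≫ specK K k') (Or.inr ?_)]
    · simp only [Category.assoc, reassoc_of% hΦo, pullback.lift_fst_assoc, Category.id_comp]
    · simp only [Φ, q₁, x₀, Category.assoc, pullback.lift_snd_assoc, pullback.lift_snd]
  · rw [← Category.assoc, hzero _ (a₁ ≫ specK K k') (Or.inl ?_)]
    · simp only [Category.assoc, reassoc_of% hΦo, pullback.lift_fst_assoc, reassoc_of% hx₀]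
    · simp only [Φ, q₁, x₀, Category.assoc, pullback.lift_snd_assoc, pullback.lift_fst_assoc,
        pullback.lift_fst, pullback.lift_snd]

end Normalised

omit [IsAlgClosed K] in
/-- Slices of the cube class at two points on a common curve agree. -/
theorem slice_eq_of_curve (hV : GeometricallyIntegral V.f) (L : Pic V.A)
    (a b : SchemeHomOver (𝟙 (Spec (CommRingCat.of k'))) c) (P Q : V.Pt (specK K k'))
    (hP : P.hom = a.1 ≫ φ.hom) (hQ : Q.hom = b.1 ≫ φ.hom) : V.slice L P = V.slice L Q := by
  -- the square is geometrically integral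
  have : GeometricallyIntegral V.sqStr := Jac.Abel.geometricallyIntegral_fst_comp V.f V.f
  let z := (0 : V.K_Points).hom
  have hz : z ≫ V.f = 𝟙 _ := Pt.hom_over _
  let Ψ := curveTheta c φ L -
    Pic.map (pullback.snd c (pullback.fst (specK K k') V.sqStr))
        (Pic.map (rigSection c (pullback.fst (specK K k') V.sqStr) a) (curveTheta c φ L))
  -- vanishing of the normalised class on the axes
  have hvan : ∀ {T : Scheme.{u}} (W : T ⟶ pullback c (pullback.fst (specK K k') V.sqStr))
      (q : T ⟶ Spec (CommRingCat.of K)),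
      (W ≫ pullback.snd _ _ ≫ (pullback.snd (specK K k') V.sqStr) ≫ pullback.fst V.f V.f = q ≫ z ∨
        W ≫ pullback.snd _ _ ≫ (pullback.snd (specK K k') V.sqStr) ≫ pullback.snd V.f V.f = q ≫ z) →
            Pic.map W Ψ = 0 :=
    fun W q h => map_normalised_eq_zero c φ a L W q h
  obtain ⟨M, hM, hMΨ⟩ := Pic.exists_ofModules Ψ
  have hrs : rigSection c (pullback.fst (specK K k') V.sqStr) a ≫
      pullback.snd c (pullback.fst (specK K k') V.sqStr) =
      𝟙 _ := pullback.lift_snd _ _ _
  let R : RigidifiedLineBundle c a (pullback.fst (specK K k') V.sqStr) :=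
    ⟨M, hM, nonempty_iso_unit_of_map_eq_zero hM _ (by
      rw [hMΨ]
      simp only [Ψ, map_sub]
      rw [← Pic.map_comp, hrs, Pic.map_id, sub_self])⟩
  have hR : FibrewiseAlgEquivZero R := fibrewiseAlgEquivZero_of_axis c a hV R
    fun W q h => by rw [hMΨ]; exact hvan W q (Or.inl h)
  obtain ⟨D, ⟨hD⟩, -, hDp, -⟩ := Jac.exists_represents_algEquivZeroCut k' c a
  obtain ⟨g, ⟨eg⟩, -⟩ := hD.univ (pullback.fst (specK K k') V.sqStr) R hR
  have hzero : ∀ {T : Scheme.{u}} (ι : T ⟶ pullback (specK K k') V.sqStr)
      (q : T ⟶ Spec (CommRingCat.of K)),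
      (ι ≫ (pullback.snd (specK K k') V.sqStr) ≫ pullback.fst V.f V.f = q ≫ z ∨
        ι ≫ (pullback.snd (specK K k') V.sqStr)
          ≫ pullback.snd V.f V.f = q ≫ z) →
        ι ≫ g.1 = (ι ≫ (pullback.fst (specK K k') V.sqStr)) ≫ D.zeroSection := by
    intro T ι q h
    let ι' : SchemeHomOver (ι ≫ (pullback.fst (specK K k') V.sqStr))
        (pullback.fst (specK K k') V.sqStr) := ⟨ι, rfl⟩
    let s0 : SchemeHomOver (ι ≫ (pullback.fst (specK K k') V.sqStr))
        (𝟙 (Spec (CommRingCat.of k'))) :=
        ⟨ι ≫ (pullback.fst (specK K k') V.sqStr), Category.comp_id _⟩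
    obtain ⟨e⟩ := nonempty_iso_unit_of_map_eq_zero hM (baseChangeSnd c ι') (by
      rw [hMΨ]
      refine hvan _ (pullback.snd _ _ ≫ q) ?_
      rcases h with h | h
      · refine Or.inl ?_
        simp only [Jac.Abel.baseChangeSnd_snd_assoc, Category.assoc, ι', h]
      · refine Or.inr ?_
        simp only [Jac.Abel.baseChangeSnd_snd_assoc, Category.assoc, ι', h])
    obtain ⟨e0⟩ := hD.zero
    have := hD.ext_of_iso (ι ≫ (pullback.fst (specK K k') V.sqStr)) (postComp g ι')
      (postComp ⟨D.zeroSection,
        D.zeroSection_toBase⟩ s0)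
      ⟨(Scheme.Modules.pullbackCongr (baseChangeSnd_comp c g ι').symm).app _ ≪≫
        ((Scheme.Modules.pullbackComp _ _).app _).symm ≪≫
        (Scheme.Modules.pullback (baseChangeSnd c ι')).mapIso eg ≪≫ e ≪≫
        (Scheme.Modules.pullbackUnitIso (baseChangeSnd c s0)).symm ≪≫
        (Scheme.Modules.pullback (baseChangeSnd c s0)).mapIso e0.symm ≪≫
        (Scheme.Modules.pullbackComp _ _).app _ ≪≫
        (Scheme.Modules.pullbackCongr (baseChangeSnd_comp c _ s0)).app _⟩
    exact congrArg Subtype.val this
  have hg : g.1 = (pullback.fst (specK K k') V.sqStr) ≫ D.zeroSection :=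
    eq_fst_comp_of_axes hV D.toBase D.zeroSection D.zeroSection_toBase g.1 g.2 hzero
  -- hence the class is trivial
  have hΨ : Ψ = 0 := by
    let s0 : SchemeHomOver (pullback.fst (specK K k') V.sqStr) (𝟙 (Spec (CommRingCat.of k'))) :=
        ⟨(pullback.fst (specK K k') V.sqStr), Category.comp_id _⟩
    obtain ⟨e0⟩ := hD.zero
    rw [← hMΨ, ← Pic.ofModules_unit]
    refine (Pic.ofModules_eq_iff _ _).mpr ⟨eg.symm ≪≫
      (Scheme.Modules.pullbackCongr ?_).app _ ≪≫ ((Scheme.Modules.pullbackComp _ _).app _).symm ≪≫
      (Scheme.Modules.pullback (baseChangeSnd c s0)).mapIso e0 ≪≫ Scheme.Modules.pullbackUnitIso _⟩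
    rw [baseChangeSnd_comp]
    exact congrArg _ (Subtype.ext hg)
  have hb : Pic.map (rigSection c (pullback.fst (specK K k') V.sqStr) b) Ψ = 0 := by
    rw [hΨ, map_zero]
  simp only [Ψ, map_sub, sub_eq_zero] at hb
  rw [slice_eq_map_rigSection c φ L a P hP, slice_eq_map_rigSection c φ L b Q hQ, hb,
    ← Pic.map_comp (pullback.snd c (pullback.fst (specK K k') V.sqStr)),
    show rigSection c (pullback.fst (specK K k') V.sqStr) b ≫
        pullback.snd c (pullback.fst (specK K k') V.sqStr) = 𝟙 _ from
      pullback.lift_snd _ _ _, Pic.map_id]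

end

end Fermat.Agent.AbVar.AV

end
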